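import Mathlib

/-!
# S18 / DISC piece 4, part 1: the tame discriminant over a PID  (helper7529)

`W` a principal ideal domain, `s : W` an irreducible element whose residue field `W / s` has
characteristic zero (in the form: `s ∤ m` for every nonzero natural number `m`), `C` an integrally
closed domain which is a finite free `W`-algebra with basis `b`.  Let `J = rad(s C)`.

* `exists_adapted_basis` : a basis `b'` of `C` and a set `S` of indices with `b' i ∈ J` for
  `i ∈ S`, and such that the coordinates outside `S` of every element of `J` are divisible by `s`.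
* `pow_dvd_discr`, `not_pow_succ_dvd_discr` : for such an adapted pair, `s ^ |S|` divides the
  discriminant of `b` and `s ^ (|S| + 1)` does not  (`v_s(discr) = Σ (e_Q - 1) f_Q`).

The proofs are the PID versions of the DVR statements of helper1882
(`Fermat/Agent/S18/LL1882/{DvrCrit,Tame}.lean`, Local Lemma LL3/LL4): the arguments are the same,
the residue field of the local ring being replaced by `W ⧸ (s)`.  Mathlib-only.
-/

set_option autoImplicit false

namespace Fermat.Agent.S18.DISC7529

open Module Polynomial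

section Tame

variable {W C : Type*} [CommRing W] [IsDomain W] [IsPrincipalIdealRing W]
  [CommRing C] [IsDomain C] [Algebra W C]

attribute [local instance] Ideal.Quotient.field

/-- Traces commute with reduction modulo a maximal ideal (free case over a PID). -/
theorem trace_quot_mk [IsIntegrallyClosed C] {ι : Type*} [Fintype ι] (b : Basis ι W C)
    (𝔭 : Ideal W) [𝔭.IsMaximal] (x : C) :
    Algebra.trace (W ⧸ 𝔭) (C ⧸ 𝔭.map (algebraMap W C)) (Ideal.Quotient.mk _ x) =
      Ideal.Quotient.mk 𝔭 (Algebra.trace W C x) := by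
  have hfree := Module.Free.of_basis b
  have hfin := Module.Finite.of_basis b
  rw [Algebra.trace_quotient_eq_of_isDedekindDomain, Algebra.intTrace_eq_trace]

theorem isMaximal_span_of_irreducible {s : W} (hs : Irreducible s) :
    (Ideal.span {s}).IsMaximal :=
  PrincipalIdealRing.isMaximal_of_irreducible hs

/-- The trace of an element which is nilpotent modulo `s` is divisible by `s`. -/
theorem dvd_trace_of_mem_radical [IsIntegrallyClosed C] {ι : Type*} [Fintype ι]
    (b : Basis ι W C) {s : W}
    (hs : Irreducible s) {w : C} (hw : w ∈ (Ideal.span {algebraMap W C s}).radical) :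
    s ∣ Algebra.trace W C w := by
  have hfree := Module.Free.of_basis b
  have hfin := Module.Finite.of_basis b
  haveI hmax : (Ideal.span {s}).IsMaximal := isMaximal_span_of_irreducible hs
  have h := trace_quot_mk b (Ideal.span {s}) w
  obtain ⟨k, hk⟩ := hw
  have hnil : IsNilpotent
      (Ideal.Quotient.mk ((Ideal.span {s}).map (algebraMap W C)) w) := by
    refine ⟨k, ?_⟩
    rw [← map_pow, Ideal.Quotient.eq_zero_iff_mem, Ideal.map_span, Set.image_singleton]
    exact hk
  have h2 := Algebra.isNilpotent_trace_of_isNilpotent (R := W ⧸ Ideal.span {s}) hnil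
  rw [h] at h2
  have h3 := h2.eq_zero
  rw [Ideal.Quotient.eq_zero_iff_mem, Ideal.mem_span_singleton] at h3
  exact h3

/-- **Adapted basis** for `J = rad(s C)` (from the Smith normal form of `J`): a basis `b'` of `C`
and a set `S` of indices such that `b' i ∈ J` for `i ∈ S`, while the coordinates outside `S` of
every element of `J` are divisible by `s`. -/
theorem exists_adapted_basis {ι : Type*} [Fintype ι] [DecidableEq ι] (b : Basis ι W C) {s : W}
    (hs : Irreducible s) :
    ∃ (b' : Basis ι W C) (S : Finset ι),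
      (∀ i ∈ S, b' i ∈ (Ideal.span {algebraMap W C s}).radical) ∧
      (∀ i, i ∉ S → ∀ w ∈ (Ideal.span {algebraMap W C s}).radical, s ∣ b'.repr w i) := by
  classical
  have hfree := Module.Free.of_basis b
  have hfin := Module.Finite.of_basis b
  set P : C := algebraMap W C s with hP
  set J : Ideal C := (Ideal.span {P}).radical with hJ
  have hinj : Function.Injective (algebraMap W C) := FaithfulSMul.algebraMap_injective W C
  have hs0 : s ≠ 0 := hs.ne_zero
  have hP0 : P ≠ 0 := fun h => hs0 (hinj (by rw [← hP, h, map_zero]))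
  have hPJ : P ∈ J := Ideal.le_radical (Ideal.mem_span_singleton_self P)
  have hJbot : J ≠ ⊥ := fun h => hP0 (by rw [h] at hPJ; exact hPJ)
  have hsmulJ : ∀ (v : W) (w : C), w ∈ J → v • w ∈ J := fun v w hw => by
    rw [Algebra.smul_def]; exact J.mul_mem_left _ hw
  obtain ⟨b', a, ab', hab⟩ := Ideal.exists_smith_normal_form b J hJbot
  -- coordinates of elements of `J`
  have hcoord : ∀ (w : C) (hw : w ∈ J) (i : ι), b'.repr w i = ab'.repr ⟨w, hw⟩ i * a i := by
    intro w hw i
    obtain ⟨cf, hcf, h1⟩ : ∃ cf : ι → W, (∀ k, cf k = ab'.repr ⟨w, hw⟩ k * a k) ∧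
        w = ∑ k, cf k • b' k := by
      refine ⟨fun k => ab'.repr ⟨w, hw⟩ k * a k, fun _ => rfl, ?_⟩
      have h2 := congrArg (fun x : J => (x : C)) (ab'.sum_repr ⟨w, hw⟩)
      simp only [Submodule.coe_sum, Submodule.coe_smul_of_tower, hab] at h2
      exact h2.symm.trans (Finset.sum_congr rfl fun k _ => by rw [smul_smul])
    have h3 : b'.repr w i = cf i := by
      rw [h1, b'.repr_sum_self]
    rw [h3, hcf]
  have ha_dvd : ∀ i, a i ∣ s := by
    intro i
    have hw : s • b' i ∈ J := by
      rw [Algebra.smul_def]; exact J.mul_mem_right _ hPJ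
    have h := hcoord _ hw i
    rw [map_smul, Finsupp.smul_apply, b'.repr_self, Finsupp.single_eq_same, smul_eq_mul,
      mul_one] at h
    exact Dvd.intro_left _ h.symm
  set S : Finset ι := Finset.univ.filter (fun i => IsUnit (a i)) with hS
  have hS_mem : ∀ i ∈ S, b' i ∈ J := by
    intro i hi
    obtain ⟨u, hu⟩ := (Finset.mem_filter.mp hi).2
    have h1 : (a i • b' i) ∈ J := by rw [← hab i]; exact (ab' i).2
    have h2 : b' i = (↑u⁻¹ : W) • (a i • b' i) := by
      rw [smul_smul, ← hu, Units.inv_mul, one_smul]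
    rw [h2]
    exact hsmulJ _ _ h1
  have hnotS : ∀ i, i ∉ S → ∀ w ∈ J, s ∣ b'.repr w i := by
    intro i hi w hw
    have hnu : ¬ IsUnit (a i) := fun h => hi (Finset.mem_filter.mpr ⟨Finset.mem_univ _, h⟩)
    obtain ⟨c, hc⟩ := ha_dvd i
    have hcu : IsUnit c := (hs.isUnit_or_isUnit hc).resolve_left hnu
    obtain ⟨u, hu⟩ := hcu
    have hai : a i = s * (↑u⁻¹ : W) := by
      rw [hc, ← hu, mul_assoc, Units.mul_inv, mul_one]
    rw [hcoord w hw i]
    exact ⟨ab'.repr ⟨w, hw⟩ i * (↑u⁻¹ : W), by rw [hai]; ring⟩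
  exact ⟨b', S, hS_mem, hnotS⟩


/-- (α) In residue characteristic zero the radical of the trace form modulo `s` is `rad(s C)`. -/
theorem mem_radical_of_forall_dvd_trace [IsIntegrallyClosed C] {ι : Type*} [Fintype ι]
    (b : Basis ι W C) {s : W}
    (hs : Irreducible s) (hchar : ∀ m : ℕ, m ≠ 0 → ¬ s ∣ (m : W)) {z : C}
    (hz : ∀ x : C, s ∣ Algebra.trace W C (z * x)) :
    z ∈ (Ideal.span {algebraMap W C s}).radical := by
  classical
  have hfree := Module.Free.of_basis b
  have hfin := Module.Finite.of_basis b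
  have hmaxI : (Ideal.span {s}).IsMaximal := isMaximal_span_of_irreducible hs
  have hIspan : (Ideal.span {s}).map (algebraMap W C) =
      Ideal.span {algebraMap W C s} := by
    rw [Ideal.map_span, Set.image_singleton]
  have hcz : CharZero (W ⧸ Ideal.span {s}) := charZero_of_inj_zero (fun n hn => by
    by_contra h0
    rw [← map_natCast (Ideal.Quotient.mk (Ideal.span {s})),
      Ideal.Quotient.eq_zero_iff_mem, Ideal.mem_span_singleton] at hn
    exact hchar n h0 hn)
  have hfinq : Module.Finite (W ⧸ Ideal.span {s})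
      (C ⧸ (Ideal.span {s}).map (algebraMap W C)) :=
    Module.Finite.of_restrictScalars_finite W _ _
  have hart : IsArtinianRing (C ⧸ (Ideal.span {s}).map (algebraMap W C)) :=
    IsArtinianRing.of_finite (W ⧸ Ideal.span {s}) _
  by_contra hzJ
  set q := Ideal.Quotient.mk ((Ideal.span {s}).map (algebraMap W C)) with hq
  have hnn : ¬ IsNilpotent (q z) := by
    rintro ⟨k, hk⟩
    apply hzJ
    rw [← hIspan]
    exact ⟨k, by rwa [← map_pow, Ideal.Quotient.eq_zero_iff_mem] at hk⟩
  obtain ⟨n, y, hy⟩ := IsArtinian.exists_pow_succ_smul_dvd (q z)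
    (1 : C ⧸ (Ideal.span {s}).map (algebraMap W C))
  rw [smul_eq_mul, smul_eq_mul, mul_one] at hy
  have hclaim : ∀ m, (q z) ^ (n + m) * y ^ m = (q z) ^ n := by
    intro m
    induction m with
    | zero => rw [add_zero, pow_zero, mul_one]
    | succ m ih =>
      calc (q z) ^ (n + (m + 1)) * y ^ (m + 1)
          = ((q z) ^ (n + 1) * y) * ((q z) ^ m * y ^ m) := by ring
        _ = (q z) ^ n * ((q z) ^ m * y ^ m) := by rw [hy]
        _ = (q z) ^ (n + m) * y ^ m := by ring
        _ = (q z) ^ n := ih
  set e := (q z) ^ n * y ^ n with he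
  have hidem : e * e = e := by
    calc e * e = ((q z) ^ (n + n) * y ^ n) * y ^ n := by rw [he]; ring
      _ = (q z) ^ n * y ^ n := by rw [hclaim n]
  have he0 : e ≠ 0 := by
    intro h0
    apply hnn
    refine ⟨n, ?_⟩
    calc (q z) ^ n = (q z) ^ (n + n) * y ^ n := (hclaim n).symm
      _ = e * (q z) ^ n := by rw [he]; ring
      _ = 0 := by rw [h0, zero_mul]
  have hec : e = q z * ((q z) ^ n * y ^ (n + 1)) := by
    calc e = ((q z) ^ (n + 1) * y) * y ^ n := by rw [hy]
      _ = q z * ((q z) ^ n * y ^ (n + 1)) := by ring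
  obtain ⟨c0, hc0⟩ := Ideal.Quotient.mk_surjective ((q z) ^ n * y ^ (n + 1))
  have htr : Algebra.trace (W ⧸ Ideal.span {s})
      (C ⧸ (Ideal.span {s}).map (algebraMap W C)) e = 0 := by
    rw [hec, ← hc0, ← map_mul, trace_quot_mk b, Ideal.Quotient.eq_zero_iff_mem,
      Ideal.mem_span_singleton]
    exact hz c0
  have hidem' : IsIdempotentElem (Algebra.lmul (W ⧸ Ideal.span {s})
      (C ⧸ (Ideal.span {s}).map (algebraMap W C)) e) := by
    show _ * _ = _
    rw [← map_mul, hidem]
  rw [Algebra.trace_apply] at htr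
  have h0 := (LinearMap.IsIdempotentElem.trace_eq_zero_iff hidem').mp htr
  apply he0
  have h1 := LinearMap.congr_fun h0 1
  simpa using h1

/-- (β) If `C` is integrally closed, `u ∈ J = rad(s C)` and `Tr(u w) ∈ s² W` for all `w ∈ J`, then
`u ∈ s C`. -/
theorem dvd_of_forall_sq_dvd_trace [IsIntegrallyClosed C] {ι : Type*} [Fintype ι]
    (b : Basis ι W C) {s : W} (hs : Irreducible s) (hchar : ∀ m : ℕ, m ≠ 0 → ¬ s ∣ (m : W))
    {u : C} (huJ : u ∈ (Ideal.span {algebraMap W C s}).radical)
    (hu : ∀ w ∈ (Ideal.span {algebraMap W C s}).radical, s ^ 2 ∣ Algebra.trace W C (u * w)) :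
    algebraMap W C s ∣ u := by
  classical
  have hfree := Module.Free.of_basis b
  have hfin := Module.Finite.of_basis b
  set P : C := algebraMap W C s with hP
  set J : Ideal C := (Ideal.span {P}).radical with hJ
  have hinjW : Function.Injective (algebraMap W C) := FaithfulSMul.algebraMap_injective W C
  have hs0 : s ≠ 0 := hs.ne_zero
  have hP0 : P ≠ 0 := fun h => hs0 (hinjW (by rw [← hP, h, map_zero]))
  have hPJ : P ∈ J := Ideal.le_radical (Ideal.mem_span_singleton_self P)
  have hnoeth : IsNoetherianRing C := IsNoetherianRing.of_finite W C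
  obtain ⟨N, hN⟩ := Ideal.exists_radical_pow_le_of_fg (Ideal.span {P})
    (IsNoetherian.noetherian _)
  by_contra hPu
  let Pred : ℕ → Prop := fun j => ∀ a ∈ J ^ j, P ∣ u * a
  have hPredN : Pred N := fun a ha => by
    obtain ⟨a', rfl⟩ := Ideal.mem_span_singleton.mp (hN ha)
    exact ⟨u * a', by ring⟩
  have hPred0 : ¬ Pred 0 := fun h => hPu (by
    have := h 1 (by rw [pow_zero, Ideal.one_eq_top]; exact Submodule.mem_top)
    rwa [mul_one] at this)
  have hex : ∃ j, Pred j := ⟨N, hPredN⟩
  have hj0 : Pred (Nat.find hex) := Nat.find_spec hex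
  have hj0pos : Nat.find hex ≠ 0 := fun h => hPred0 (h ▸ hj0)
  have hj0' : ¬ Pred (Nat.find hex - 1) := Nat.find_min hex (by omega)
  simp only [Pred] at hj0'
  push Not at hj0'
  obtain ⟨a, ha, hPa⟩ := hj0'
  have hu1J : u * a ∈ J := J.mul_mem_right _ huJ
  have hu1mul : ∀ w ∈ J, P ∣ u * a * w := by
    intro w hw
    have h1 : a * w ∈ J ^ (Nat.find hex) := by
      have h2 : Nat.find hex = (Nat.find hex - 1) + 1 := by omega
      rw [h2, pow_succ]
      exact Ideal.mul_mem_mul ha hw
    have h3 := hj0 (a * w) h1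
    rwa [← mul_assoc] at h3
  have hu1tr : ∀ w ∈ J, s ^ 2 ∣ Algebra.trace W C (u * a * w) := fun w hw => by
    rw [mul_assoc]; exact hu _ (J.mul_mem_left _ hw)
  choose! zw hzw using hu1mul
  by_cases hcase : ∀ w ∈ J, zw w ∈ J
  · -- `u a / P` stabilises `J`, hence is integral
    let L := FractionRing C
    have hinjL : Function.Injective (algebraMap C L) := IsFractionRing.injective C L
    have hPL : algebraMap C L P ≠ 0 := fun h => hP0 (hinjL (by rw [h, map_zero]))
    have hx : IsIntegral C (algebraMap C L (u * a) / algebraMap C L P) := by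
      refine isIntegral_of_smul_mem_submodule (Submodule.map (Algebra.linearMap C L) J) ?_
        ((IsNoetherian.noetherian J).map _) _ ?_
      · intro hbot
        have h1 : algebraMap C L P ∈ Submodule.map (Algebra.linearMap C L) J :=
          ⟨P, hPJ, rfl⟩
        rw [hbot, Submodule.mem_bot] at h1
        exact hPL h1
      · rintro _ ⟨w, hw, rfl⟩
        refine ⟨zw w, hcase w hw, ?_⟩
        rw [Algebra.linearMap_apply, Algebra.linearMap_apply, smul_eq_mul, div_mul_eq_mul_div,
          eq_div_iff hPL, ← map_mul, ← map_mul, hzw w hw, mul_comm]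
    obtain ⟨c, hc⟩ := (isIntegrallyClosed_iff L).mp inferInstance hx
    apply hPa
    refine ⟨c, hinjL ?_⟩
    rw [map_mul (algebraMap C L) P c, hc, mul_div_cancel₀ _ hPL]
  · push Not at hcase
    obtain ⟨w, hw, hzwJ⟩ := hcase
    have hexc : ∃ c, ¬ s ∣ Algebra.trace W C (zw w * c) := by
      by_contra hall
      push Not at hall
      exact hzwJ (mem_radical_of_forall_dvd_trace b hs hchar hall)
    obtain ⟨c, hc⟩ := hexc
    apply hc
    have h1 := hu1tr (w * c) (J.mul_mem_right _ hw)
    rw [← mul_assoc, hzw w hw, mul_assoc, hP, ← Algebra.smul_def, map_smul, smul_eq_mul,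
      pow_two] at h1
    exact (mul_dvd_mul_iff_left hs0).mp h1

/-- **Tame discriminant bound.**  `W` a DVR with uniformizer `s` and residue characteristic zero,
`C` an integrally closed domain, free over `W` with finite basis `b` (of cardinality `n`).  If
`τ₁, …, τ_ρ` are linearly independent modulo `rad(s C)` (in the sense that a `W`-combination lying
in `rad(s C)` has all coefficients divisible by `s`), then `s ^ (n - ρ + 1) ∤ discr b`. -/
theorem not_pow_dvd_discr_of_charZero [IsIntegrallyClosed C]
    {ι : Type*} [Fintype ι] [DecidableEq ι] (b : Basis ι W C) {s : W} (hs : Irreducible s)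
    (hchar : ∀ m : ℕ, m ≠ 0 → ¬ s ∣ (m : W))
    (ρ : ℕ) (τ : Fin ρ → C)
    (hτ : ∀ v : Fin ρ → W, ∑ j, v j • τ j ∈ (Ideal.span {algebraMap W C s}).radical →
      ∀ j, s ∣ v j) :
    ¬ s ^ (Fintype.card ι - ρ + 1) ∣ Algebra.discr W b := by
  classical
  intro hdvd
  have hfree := Module.Free.of_basis b
  have hfin := Module.Finite.of_basis b
  set P : C := algebraMap W C s with hP
  set J : Ideal C := (Ideal.span {P}).radical with hJ
  have hs0 : s ≠ 0 := hs.ne_zero
  have hmaxI : (Ideal.span {s}).IsMaximal := isMaximal_span_of_irreducible hs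
  have hPJ : P ∈ J := Ideal.le_radical (Ideal.mem_span_singleton_self P)
  obtain ⟨b', S, hS_mem, hnotS⟩ := exists_adapted_basis b hs
  have hmemJ : ∀ f : ι → W, (∀ i, i ∉ S → s ∣ f i) → ∑ i, f i • b' i ∈ J := by
    intro f hf
    refine J.sum_mem fun i _ => ?_
    by_cases hi : i ∈ S
    · rw [Algebra.smul_def]; exact J.mul_mem_left _ (hS_mem i hi)
    · obtain ⟨c, hc⟩ := hf i hi
      rw [hc, mul_smul, Algebra.smul_def s, ← hP]
      exact J.mul_mem_right _ hPJ
  have hres : ∀ x : W, Ideal.Quotient.mk (Ideal.span {s}) x = 0 ↔ s ∣ x := fun x => by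
    rw [Ideal.Quotient.eq_zero_iff_mem, Ideal.mem_span_singleton]
  -- (1) counting
  have hcard : ρ + S.card ≤ Fintype.card ι := by
    have hli : LinearIndependent (W ⧸ Ideal.span {s})
        (fun j : Fin ρ => fun i : (↥(Sᶜ : Finset ι)) =>
          Ideal.Quotient.mk (Ideal.span {s}) (b'.repr (τ j) i)) := by
      rw [Fintype.linearIndependent_iff]
      intro g hg j
      choose v hv using fun j => Ideal.Quotient.mk_surjective (I := Ideal.span {s}) (g j)
      have h1 : ∀ i, i ∉ S → s ∣ b'.repr (∑ j, v j • τ j) i := by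
        intro i hi
        have h0 := congrFun hg ⟨i, Finset.mem_compl.mpr hi⟩
        simp only [Finset.sum_apply, Pi.smul_apply, smul_eq_mul, Pi.zero_apply] at h0
        rw [← hres, map_sum, Finsupp.coe_finsetSum, Finset.sum_apply, map_sum, ← h0]
        refine Finset.sum_congr rfl fun j _ => ?_
        rw [map_smul, Finsupp.smul_apply, smul_eq_mul, map_mul, hv]
      have h2 : ∑ j, v j • τ j ∈ J := by
        have h3 := hmemJ (fun i => b'.repr (∑ j, v j • τ j) i) h1
        rwa [b'.sum_repr] at h3
      have h3 := hτ v h2 j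
      rw [← hres, hv] at h3
      exact h3
    have h4 := hli.fintype_card_le_finrank
    rw [Fintype.card_fin, Module.finrank_fintype_fun_eq_card, Fintype.card_coe,
      Finset.card_compl] at h4
    have h5 := S.card_le_univ
    omega
  -- (2) the Gram matrix of the adapted basis
  have hdiscr_b' : Algebra.discr W b' = (b.toMatrix b').det ^ 2 * Algebra.discr W b := by
    conv_lhs => rw [← b.toMatrix_map_vecMul b']
    exact Algebra.discr_of_matrix_vecMul _ _
  have hdvd' : s ^ (S.card + 1) ∣ Algebra.discr W b' := by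
    rw [hdiscr_b']
    exact Dvd.dvd.mul_left ((pow_dvd_pow s (by omega)).trans hdvd) _
  have hG1 : ∀ i ∈ S, ∀ j, s ∣ Algebra.trace W C (b' i * b' j) := fun i hi j =>
    dvd_trace_of_mem_radical b hs (J.mul_mem_right _ (hS_mem i hi))
  have hq : ∀ i j, ∃ q : W, Algebra.trace W C (b' i * b' j) = (if i ∈ S then s else 1) * q := by
    intro i j
    by_cases hi : i ∈ S
    · obtain ⟨q, hq⟩ := hG1 i hi j
      exact ⟨q, by rw [if_pos hi, hq]⟩
    · exact ⟨_, by rw [if_neg hi, one_mul]⟩
  choose M hM using hq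
  have hdet : Algebra.discr W b' = s ^ S.card * (Matrix.of M).det := by
    have hG : Algebra.traceMatrix W b' = Matrix.of fun i j => (if i ∈ S then s else 1) * M i j := by
      ext i j
      rw [Algebra.traceMatrix_apply, Algebra.traceForm_apply, Matrix.of_apply, hM]
    rw [Algebra.discr_def, hG]
    have h0 := Matrix.det_mul_column (fun i => if i ∈ S then s else 1) (Matrix.of M)
    rw [Finset.prod_ite_mem, Finset.univ_inter, Finset.prod_const] at h0
    exact h0
  have hsM : s ∣ (Matrix.of M).det := by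
    rw [hdet, pow_succ] at hdvd'
    exact (mul_dvd_mul_iff_left (pow_ne_zero _ hs0)).mp hdvd'
  have hdet0 : ((Matrix.of M).map (Ideal.Quotient.mk (Ideal.span {s}))).det = 0 := by
    rw [← RingHom.mapMatrix_apply, ← RingHom.map_det, hres]; exact hsM
  obtain ⟨vbar, hvbar0, hvbar⟩ := Matrix.exists_vecMul_eq_zero_iff.mpr hdet0
  choose g hg using fun i => Ideal.Quotient.mk_surjective (I := Ideal.span {s}) (vbar i)
  have hgM : ∀ j, s ∣ ∑ i, g i * M i j := by
    intro j
    have h0 := congrFun hvbar j
    simp only [Matrix.vecMul, dotProduct, Matrix.map_apply, Matrix.of_apply, Pi.zero_apply] at h0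
    rw [← hres, map_sum, ← h0]
    exact Finset.sum_congr rfl fun i _ => by rw [map_mul, hg]
  have hgne : ∃ i, ¬ s ∣ g i := by
    by_contra hall
    push Not at hall
    apply hvbar0
    funext i
    rw [← hg i, Pi.zero_apply, hres]
    exact hall i
  have htrace_vec : ∀ (f : ι → W) (x : C), Algebra.trace W C ((∑ i, f i • b' i) * x) =
      ∑ i, f i * Algebra.trace W C (b' i * x) := by
    intro f x
    rw [Finset.sum_mul, map_sum]
    exact Finset.sum_congr rfl fun i _ => by rw [smul_mul_assoc, map_smul, smul_eq_mul]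
  set f : ι → W := fun i => if i ∈ S then g i else s * g i with hf
  have hF1 : ∀ j, s ^ 2 ∣ Algebra.trace W C ((∑ i, f i • b' i) * b' j) := by
    intro j
    rw [htrace_vec]
    have h1 : ∑ i, f i * Algebra.trace W C (b' i * b' j) = s * ∑ i, g i * M i j := by
      rw [Finset.mul_sum]
      refine Finset.sum_congr rfl fun i _ => ?_
      rw [hM i j, hf]
      by_cases hi : i ∈ S
      · simp only [if_pos hi]; ring
      · simp only [if_neg hi]; ring
    rw [h1, pow_two]
    exact mul_dvd_mul_left s (hgM j)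
  have hF : ∀ x : C, s ^ 2 ∣ Algebra.trace W C ((∑ i, f i • b' i) * x) := by
    intro x
    conv_rhs => rw [← b'.sum_repr x]
    rw [Finset.mul_sum, map_sum]
    refine Finset.dvd_sum fun j _ => ?_
    rw [mul_smul_comm, map_smul, smul_eq_mul]
    exact Dvd.dvd.mul_left (hF1 j) _
  set fu : ι → W := fun i => if i ∈ S then g i else 0 with hfu
  set fu' : ι → W := fun i => if i ∈ S then 0 else g i with hfu'
  have hsplit : ∑ i, f i • b' i = ∑ i, fu i • b' i + s • ∑ i, fu' i • b' i := by
    rw [Finset.smul_sum, ← Finset.sum_add_distrib]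
    refine Finset.sum_congr rfl fun i _ => ?_
    by_cases hi : i ∈ S
    · simp only [hf, hfu, hfu', if_pos hi, zero_smul, smul_zero, add_zero]
    · simp only [hf, hfu, hfu', if_neg hi, zero_smul, zero_add, smul_smul]
  have huJ : ∑ i, fu i • b' i ∈ J := hmemJ fu (fun i hi => by
    simp only [hfu, if_neg hi]; exact dvd_zero s)
  have hu_tr : ∀ w ∈ J, s ^ 2 ∣ Algebra.trace W C ((∑ i, fu i • b' i) * w) := by
    intro w hw
    have h1 := hF w
    rw [hsplit, add_mul, map_add, smul_mul_assoc, map_smul, smul_eq_mul] at h1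
    obtain ⟨k, hk⟩ : s ∣ Algebra.trace W C ((∑ i, fu' i • b' i) * w) :=
      dvd_trace_of_mem_radical b hs (J.mul_mem_left _ hw)
    rw [hk, ← mul_assoc, ← pow_two] at h1
    exact (dvd_add_left (Dvd.intro _ rfl)).mp h1
  have hPu := dvd_of_forall_sq_dvd_trace b hs hchar huJ hu_tr
  have hgS : ∀ i ∈ S, s ∣ g i := by
    intro i hi
    obtain ⟨c, hc⟩ := hPu
    have h1 : b'.repr (∑ i, fu i • b' i) i = b'.repr (P * c) i := by rw [hc]
    rw [b'.repr_sum_self, hP, ← Algebra.smul_def, map_smul, Finsupp.smul_apply, smul_eq_mul] at h1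
    simp only [hfu, if_pos hi] at h1
    exact ⟨_, h1⟩
  choose! h hh using hgS
  set fu'' : ι → W := fun i => if i ∈ S then h i else 0 with hfu''
  have hu'' : ∑ i, fu i • b' i = s • ∑ i, fu'' i • b' i := by
    rw [Finset.smul_sum]
    refine Finset.sum_congr rfl fun i _ => ?_
    by_cases hi : i ∈ S
    · simp only [hfu, hfu'', if_pos hi, smul_smul, hh i hi]
    · simp only [hfu, hfu'', if_neg hi, zero_smul, smul_zero]
  have hsum : ∑ i, f i • b' i = s • (∑ i, (fu'' i + fu' i) • b' i) := by
    rw [hsplit, hu'', ← smul_add, ← Finset.sum_add_distrib]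
    congr 1
    exact Finset.sum_congr rfl fun i _ => by rw [add_smul]
  have hα : ∑ i, (fu'' i + fu' i) • b' i ∈ J := by
    apply mem_radical_of_forall_dvd_trace b hs hchar
    intro x
    have h1 := hF x
    rw [hsum, smul_mul_assoc, map_smul, smul_eq_mul, pow_two] at h1
    exact (mul_dvd_mul_iff_left hs0).mp h1
  have hgnS : ∀ i, i ∉ S → s ∣ g i := by
    intro i hi
    have h1 := hnotS i hi _ hα
    rw [b'.repr_sum_self] at h1
    simpa only [hfu'', hfu', if_neg hi, zero_add] using h1
  obtain ⟨i, hi⟩ := hgne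
  by_cases hiS : i ∈ S
  · exact hi (hh i hiS ▸ Dvd.intro _ rfl)
  · exact hi (hgnS i hiS)

/-- The discriminants of two bases differ by the square of a unit. -/
theorem discr_eq_unit_sq_mul {ι : Type*} [Fintype ι] [DecidableEq ι] (b b' : Basis ι W C) :
    ∃ u : Wˣ, Algebra.discr W b' = (u : W) ^ 2 * Algebra.discr W b := by
  have hdiscr_b' : Algebra.discr W b' = (b.toMatrix b').det ^ 2 * Algebra.discr W b := by
    conv_lhs => rw [← b.toMatrix_map_vecMul b']
    exact Algebra.discr_of_matrix_vecMul _ _
  have hunit : IsUnit (b.toMatrix b').det := by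
    have h := congrArg Matrix.det (b.toMatrix_mul_toMatrix_flip b')
    rw [Matrix.det_mul, Matrix.det_one] at h
    exact IsUnit.of_mul_eq_one _ h
  obtain ⟨u, hu⟩ := hunit
  exact ⟨u, by rw [hdiscr_b', hu]⟩

/-- **Lower bound.**  For an adapted pair `(b', S)`, `s ^ |S|` divides the discriminant. -/
theorem pow_card_dvd_discr [IsIntegrallyClosed C]
    {ι : Type*} [Fintype ι] [DecidableEq ι] (b b' : Basis ι W C) {s : W} (hs : Irreducible s)
    (S : Finset ι) (hS_mem : ∀ i ∈ S, b' i ∈ (Ideal.span {algebraMap W C s}).radical) :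
    s ^ S.card ∣ Algebra.discr W b := by
  classical
  set P : C := algebraMap W C s with hP
  set J : Ideal C := (Ideal.span {P}).radical with hJ
  have hG1 : ∀ i ∈ S, ∀ j, s ∣ Algebra.trace W C (b' i * b' j) := fun i hi j =>
    dvd_trace_of_mem_radical b hs (J.mul_mem_right _ (hS_mem i hi))
  have hq : ∀ i j, ∃ q : W, Algebra.trace W C (b' i * b' j) = (if i ∈ S then s else 1) * q := by
    intro i j
    by_cases hi : i ∈ S
    · obtain ⟨q, hq⟩ := hG1 i hi j
      exact ⟨q, by rw [if_pos hi, hq]⟩
    · exact ⟨_, by rw [if_neg hi, one_mul]⟩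
  choose M hM using hq
  have hdet : Algebra.discr W b' = s ^ S.card * (Matrix.of M).det := by
    have hG : Algebra.traceMatrix W b' = Matrix.of fun i j => (if i ∈ S then s else 1) * M i j := by
      ext i j
      rw [Algebra.traceMatrix_apply, Algebra.traceForm_apply, Matrix.of_apply, hM]
    rw [Algebra.discr_def, hG]
    have h0 := Matrix.det_mul_column (fun i => if i ∈ S then s else 1) (Matrix.of M)
    rw [Finset.prod_ite_mem, Finset.univ_inter, Finset.prod_const] at h0
    exact h0
  obtain ⟨u, hu⟩ := discr_eq_unit_sq_mul b b'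
  have h1 : s ^ S.card ∣ (u : W) ^ 2 * Algebra.discr W b := by
    rw [← hu, hdet]; exact Dvd.intro _ rfl
  exact (IsUnit.dvd_mul_left (u.isUnit.pow 2)).mp h1

/-- **Upper bound (tame).**  For an adapted pair `(b', S)`, `s ^ (|S| + 1)` does not divide the
discriminant, in residue characteristic zero. -/
theorem not_pow_card_succ_dvd_discr [IsIntegrallyClosed C]
    {ι : Type*} [Fintype ι] [DecidableEq ι] (b b' : Basis ι W C) {s : W} (hs : Irreducible s)
    (hchar : ∀ m : ℕ, m ≠ 0 → ¬ s ∣ (m : W))
    (S : Finset ι)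
    (hnotS : ∀ i, i ∉ S → ∀ w ∈ (Ideal.span {algebraMap W C s}).radical, s ∣ b'.repr w i) :
    ¬ s ^ (S.card + 1) ∣ Algebra.discr W b := by
  classical
  set ρ : ℕ := Fintype.card (↥(Sᶜ : Finset ι)) with hρ
  let σ : Fin ρ ≃ ↥(Sᶜ : Finset ι) := (Fintype.equivFin _).symm
  have hρ' : ρ = Fintype.card ι - S.card := by
    rw [hρ, Fintype.card_coe, Finset.card_compl]
  have hle : S.card ≤ Fintype.card ι := S.card_le_univ
  have key := not_pow_dvd_discr_of_charZero b hs hchar ρ (fun j => b' (σ j : ι)) (by
    intro v hv j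
    have h1 := hnotS (σ j : ι) (Finset.mem_compl.mp (σ j).2) _ hv
    have h2 : b'.repr (∑ j, v j • b' (σ j : ι)) (σ j : ι) = v j := by
      rw [map_sum, Finsupp.coe_finsetSum, Finset.sum_apply]
      rw [Finset.sum_eq_single j]
      · rw [map_smul, Finsupp.smul_apply, b'.repr_self, Finsupp.single_eq_same, smul_eq_mul,
          mul_one]
      · intro j' _ hj'
        rw [map_smul, Finsupp.smul_apply, b'.repr_self, Finsupp.single_eq_of_ne, smul_zero]
        intro h
        exact hj' (σ.injective (Subtype.ext h)).symm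
      · intro h; exact absurd (Finset.mem_univ j) h
    rwa [h2] at h1)
  have h3 : Fintype.card ι - ρ + 1 = S.card + 1 := by omega
  rwa [h3] at key

/-- **Counting.**  If `τ₁, …, τ_ρ` are independent modulo `J = rad(s C)` and `(b', S)` is adapted
to `J`, then `ρ + |S| ≤ rank`. -/
theorem card_add_card_le_of_indep {ι : Type*} [Fintype ι] [DecidableEq ι] (b' : Basis ι W C)
    {s : W} (hs : Irreducible s) (S : Finset ι)
    (hS_mem : ∀ i ∈ S, b' i ∈ (Ideal.span {algebraMap W C s}).radical)
    (ρ : ℕ) (τ : Fin ρ → C)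
    (hτ : ∀ v : Fin ρ → W, ∑ j, v j • τ j ∈ (Ideal.span {algebraMap W C s}).radical →
      ∀ j, s ∣ v j) :
    ρ + S.card ≤ Fintype.card ι := by
  classical
  set P : C := algebraMap W C s with hP
  set J : Ideal C := (Ideal.span {P}).radical with hJ
  have hmaxI : (Ideal.span {s}).IsMaximal := isMaximal_span_of_irreducible hs
  have hPJ : P ∈ J := Ideal.le_radical (Ideal.mem_span_singleton_self P)
  have hmemJ : ∀ f : ι → W, (∀ i, i ∉ S → s ∣ f i) → ∑ i, f i • b' i ∈ J := by
    intro f hf
    refine J.sum_mem fun i _ => ?_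
    by_cases hi : i ∈ S
    · rw [Algebra.smul_def]; exact J.mul_mem_left _ (hS_mem i hi)
    · obtain ⟨c, hc⟩ := hf i hi
      rw [hc, mul_smul, Algebra.smul_def s, ← hP]
      exact J.mul_mem_right _ hPJ
  have hres : ∀ x : W, Ideal.Quotient.mk (Ideal.span {s}) x = 0 ↔ s ∣ x := fun x => by
    rw [Ideal.Quotient.eq_zero_iff_mem, Ideal.mem_span_singleton]
  have hli : LinearIndependent (W ⧸ Ideal.span {s})
      (fun j : Fin ρ => fun i : (↥(Sᶜ : Finset ι)) =>
        Ideal.Quotient.mk (Ideal.span {s}) (b'.repr (τ j) i)) := by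
    rw [Fintype.linearIndependent_iff]
    intro g hg j
    choose v hv using fun j => Ideal.Quotient.mk_surjective (I := Ideal.span {s}) (g j)
    have h1 : ∀ i, i ∉ S → s ∣ b'.repr (∑ j, v j • τ j) i := by
      intro i hi
      have h0 := congrFun hg ⟨i, Finset.mem_compl.mpr hi⟩
      simp only [Finset.sum_apply, Pi.smul_apply, smul_eq_mul, Pi.zero_apply] at h0
      rw [← hres, map_sum, Finsupp.coe_finsetSum, Finset.sum_apply, map_sum, ← h0]
      refine Finset.sum_congr rfl fun j _ => ?_
      rw [map_smul, Finsupp.smul_apply, smul_eq_mul, map_mul, hv]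
    have h2 : ∑ j, v j • τ j ∈ J := by
      have h3 := hmemJ (fun i => b'.repr (∑ j, v j • τ j) i) h1
      rwa [b'.sum_repr] at h3
    have h3 := hτ v h2 j
    rw [← hres, hv] at h3
    exact h3
  have h4 := hli.fintype_card_le_finrank
  rw [Fintype.card_fin, Module.finrank_fintype_fun_eq_card, Fintype.card_coe,
    Finset.card_compl] at h4
  have h5 := S.card_le_univ
  omega

end Tame

end Fermat.Agent.S18.DISC7529
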